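import Fermat.Agent.UnimodularTheta.Form
import Fermat.Agent.HeckeCharFE.Poisson
import Mathlib.LinearAlgebra.Dimension.Free

/-!
# The shells are spherical 2-designs

For orthonormal coordinates `w` the sums of `w_i w_j exp (π i z q)`, `i ≠ j`, form a cusp form of
level one and weight `n / 2 + 2`; for `n ≤ 24` there is none, and rotation gives all second moments.
-/

set_option autoImplicit false

noncomputable section

namespace FA.Venkov

open UpperHalfPlane hiding I
open Complex Matrix Filter ModularForm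
open FA.UnimodularTheta
open scoped MatrixGroups Real Topology

variable {n : ℕ} {Q : Matrix (Fin n) (Fin n) ℤ}

/-- The vectors of value `2 m`. -/
def shell (hQ : IsEvenUnimodular Q) (m : ℕ) : Finset (Fin n → ℤ) := (finite_rep hQ m).toFinset

theorem mem_shell (hQ : IsEvenUnimodular Q) {m : ℕ} {v : Fin n → ℤ} :
    v ∈ shell hQ m ↔ normQ Q v = 2 * (m : ℤ) := by
  simp [shell]

theorem card_shell (hQ : IsEvenUnimodular Q) (m : ℕ) : (shell hQ m).card = repCount Q m := by
  rw [repCount, ← Nat.card_eq_finsetCard]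
  exact Nat.card_congr (Equiv.subtypeEquivRight fun v => mem_shell hQ)

/-- The product of two coordinates. -/
def coordProd (L : Matrix (Fin n) (Fin n) ℝ) (i j : Fin n) (v : Fin n → ℤ) : ℝ :=
  (L *ᵥ HeckeFE.ofInt v) i * (L *ᵥ HeckeFE.ofInt v) j

theorem sum_sq_coord {L : Matrix (Fin n) (Fin n) ℝ} (hL : Lᵀ * L = realMat Q) (v : Fin n → ℤ) :
    ∑ a, (L *ᵥ HeckeFE.ofInt v) a ^ 2 = (normQ Q v : ℝ) := by
  rw [← realMat_normQ, ← hL, ← Matrix.mulVec_mulVec, Matrix.dotProduct_mulVec,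
    Matrix.vecMul_transpose]
  simp [dotProduct, sq]

theorem abs_coordProd_le {L : Matrix (Fin n) (Fin n) ℝ} (hL : Lᵀ * L = realMat Q) (i j : Fin n)
    (v : Fin n → ℤ) : |coordProd L i j v| ≤ (normQ Q v : ℝ) := by
  have h := sum_sq_coord hL v
  have h1 := Finset.single_le_sum (f := fun a => (L *ᵥ HeckeFE.ofInt v) a ^ 2)
    (fun a _ => sq_nonneg _) (Finset.mem_univ i)
  have h2 := Finset.single_le_sum (f := fun a => (L *ᵥ HeckeFE.ofInt v) a ^ 2)
    (fun a _ => sq_nonneg _) (Finset.mem_univ j)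
  rw [coordProd, abs_le]
  constructor <;> nlinarith [sq_nonneg ((L *ᵥ HeckeFE.ofInt v) i + (L *ᵥ HeckeFE.ofInt v) j),
    sq_nonneg ((L *ᵥ HeckeFE.ofInt v) i - (L *ᵥ HeckeFE.ofInt v) j)]

/-- The theta series with the weight. -/
def pairTheta (Q : Matrix (Fin n) (Fin n) ℤ) (L : Matrix (Fin n) (Fin n) ℝ) (i j : Fin n)
    (z : ℂ) : ℂ :=
  ∑' v : Fin n → ℤ, (coordProd L i j v : ℂ) * cexp (π * I * normQ Q v * z)

variable {L : Matrix (Fin n) (Fin n) ℝ}

theorem norm_pair_le (hL : Lᵀ * L = realMat Q) (hQ : IsEvenUnimodular Q) (i j : Fin n) {a : ℝ}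
    (ha : 0 < a) (v : Fin n → ℤ) {z : ℂ} (hz : a ≤ z.im) :
    ‖(coordProd L i j v : ℂ) * cexp (π * I * normQ Q v * z)‖ ≤
      2 / (π * a) * Real.exp (-(π * (a / 2) * normQ Q v)) := by
  have hq : (0 : ℝ) ≤ normQ Q v := Int.cast_nonneg (normQ_nonneg hQ v)
  have hx := Real.add_one_le_exp (π * (a / 2) * normQ Q v)
  rw [norm_mul, norm_term, Complex.norm_real, Real.norm_eq_abs]
  calc |coordProd L i j v| * Real.exp (-(π * z.im * normQ Q v))
      ≤ (normQ Q v : ℝ) * Real.exp (-(π * a * normQ Q v)) :=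
        mul_le_mul (abs_coordProd_le hL i j v) (Real.exp_le_exp.2 (neg_le_neg
          (mul_le_mul_of_nonneg_right (mul_le_mul_of_nonneg_left hz Real.pi_pos.le) hq)))
          (Real.exp_pos _).le hq
    _ ≤ 2 / (π * a) * Real.exp (π * (a / 2) * normQ Q v) *
          Real.exp (-(π * a * normQ Q v)) := by
        refine mul_le_mul_of_nonneg_right ?_ (Real.exp_pos _).le
        rw [div_mul_eq_mul_div, le_div_iff₀ (by positivity)]
        linarith
    _ = _ := by
        rw [mul_assoc, ← Real.exp_add]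
        ring_nf

theorem summable_pair (hL : Lᵀ * L = realMat Q) (hQ : IsEvenUnimodular Q) (i j : Fin n) {z : ℂ}
    (hz : 0 < z.im) :
    Summable fun v : Fin n → ℤ => (coordProd L i j v : ℂ) * cexp (π * I * normQ Q v * z) :=
  Summable.of_norm_bounded ((summable_exp_normQ hQ (half_pos hz)).mul_left _)
    fun v => norm_pair_le hL hQ i j hz v le_rfl

theorem differentiableAt_pairTheta (hL : Lᵀ * L = realMat Q) (hQ : IsEvenUnimodular Q)
    (i j : Fin n) {z : ℂ} (hz : 0 < z.im) : DifferentiableAt ℂ (pairTheta Q L i j) z := by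
  have hU : IsOpen {w : ℂ | z.im / 2 < w.im} := isOpen_lt continuous_const Complex.continuous_im
  exact (differentiableOn_tsum_of_summable_norm
    ((summable_exp_normQ hQ (half_pos (half_pos hz))).mul_left _) (fun v => by fun_prop) hU
    fun v w hw => norm_pair_le hL hQ i j (half_pos hz) v (le_of_lt hw)).differentiableAt
    (hU.mem_nhds (show z.im / 2 < z.im by linarith))

theorem pairTheta_ray (Q : Matrix (Fin n) (Fin n) ℤ) (L : Matrix (Fin n) (Fin n) ℝ) (i j : Fin n)
    (t : ℝ) : pairTheta Q L i j (t * I) =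
      ((∑' v : Fin n → ℤ, coordProd L i j v * Real.exp (-(π * t * normQ Q v)) : ℝ) : ℂ) := by
  rw [Complex.ofReal_tsum]
  refine tsum_congr fun v => ?_
  rw [Complex.ofReal_mul, Complex.ofReal_exp]
  congr 2
  push_cast
  linear_combination ((π : ℂ) * t * (normQ Q v : ℂ)) * I_sq

theorem pair_inversion_ray (hL : Lᵀ * L = realMat Q) (hQ : IsEvenUnimodular Q) {i j : Fin n}
    (hij : i ≠ j) {t : ℝ} (ht : 0 < t) :
    ∑' v : Fin n → ℤ, coordProd L i j v * Real.exp (-(π * t⁻¹ * normQ Q v)) =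
      -(√t ^ n * t ^ 2 *
        ∑' v : Fin n → ℤ, coordProd L i j v * Real.exp (-(π * t * normQ Q v))) := by
  have hs : √t ≠ 0 := (Real.sqrt_pos.2 ht).ne'
  have hdet : L.det ^ 2 = 1 := by
    have h := congrArg Matrix.det hL
    rw [Matrix.det_mul, Matrix.det_transpose,
      show realMat Q = (Int.castRingHom ℝ).mapMatrix Q from rfl, ← RingHom.map_det, hQ.det_eq,
      map_one] at h
    rw [sq, h]
  have hdet' : |L.det| = 1 := by
    rcases sq_eq_one_iff.1 hdet with h | h <;> simp [h]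
  have hu : IsUnit L.det := isUnit_iff_ne_zero.2 fun h => by simp [h] at hdet'
  have hQu : IsUnit Q.det := by rw [hQ.det_eq]; exact isUnit_one
  have h := HeckeCharFE.hfun_poisson (L := √t • L) (N := (√t)⁻¹ • (L⁻¹)ᵀ) (by
    rw [Matrix.transpose_smul, Matrix.transpose_transpose, Matrix.smul_mul, Matrix.mul_smul,
      smul_smul, inv_mul_cancel₀ hs, Matrix.nonsing_inv_mul _ hu, one_smul]) {i, j} 0
  let e : (Fin n → ℤ) ≃ (Fin n → ℤ) :=
    { toFun := fun v => Q *ᵥ v
      invFun := fun v => Q⁻¹ *ᵥ v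
      left_inv := fun v => by
        simp [Matrix.mulVec_mulVec, Matrix.nonsing_inv_mul _ hQu]
      right_inv := fun v => by
        simp [Matrix.mulVec_mulVec, Matrix.mul_nonsing_inv _ hQu] }
  have hval : ∀ (c : ℝ) (v : Fin n → ℤ), HeckeCharFE.hfun (c • L) {i, j} (HeckeFE.ofInt v) =
      c ^ 2 * coordProd L i j v * Real.exp (-(π * c ^ 2 * normQ Q v)) := fun c v => by
    rw [HeckeCharFE.hfun, gauss_sqrt hL, Finset.prod_pair hij, coordProd]
    simp only [Matrix.smul_mulVec, Pi.smul_apply, smul_eq_mul]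
    ring
  have hdual : ∀ v : Fin n → ℤ,
      HeckeCharFE.hfun ((√t)⁻¹ • (L⁻¹)ᵀ) {i, j} (HeckeFE.ofInt (e v)) =
        t⁻¹ * coordProd L i j v * Real.exp (-(π * t⁻¹ * normQ Q v)) := fun v => by
    have e1 : HeckeFE.ofInt (e v) = realMat Q *ᵥ HeckeFE.ofInt v := by
      funext a
      simp [e, realMat, Matrix.mulVec, dotProduct, HeckeFE.ofInt]
    have e2 : ((√t)⁻¹ • (L⁻¹)ᵀ) *ᵥ HeckeFE.ofInt (e v) = ((√t)⁻¹ • L) *ᵥ HeckeFE.ofInt v := by
      rw [e1, Matrix.mulVec_mulVec, ← hL, Matrix.smul_mul, ← Matrix.mul_assoc,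
        ← Matrix.transpose_mul, Matrix.mul_nonsing_inv _ hu, Matrix.transpose_one, Matrix.one_mul]
    have e3 := hval (√t)⁻¹ v
    rw [inv_pow, Real.sq_sqrt ht.le] at e3
    rw [← e3, HeckeCharFE.hfun, HeckeCharFE.hfun, HeckeFE.gauss, HeckeFE.gauss, e2]
  have hF : ∀ w : Fin n → ℤ, UnitAddTorus.mFourier w (HeckeFE.toTorus 0) = 1 := fun w => by
    rw [HeckeFE.mFourier_toTorus]
    simp
  simp only [hF, one_mul] at h
  rw [← e.tsum_eq (fun w => (HeckeCharFE.hfun ((√t)⁻¹ • (L⁻¹)ᵀ) {i, j} (HeckeFE.ofInt w) : ℂ))] at h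
  simp only [zero_add, hdual, hval, Real.sq_sqrt ht.le, Finset.card_pair hij, Matrix.det_smul,
    abs_mul, hdet', mul_one, Fintype.card_fin,
    abs_pow, abs_of_nonneg (Real.sqrt_nonneg t), neg_sq, I_sq] at h
  rw [← Complex.ofReal_tsum, ← Complex.ofReal_tsum, ← Complex.ofReal_one, ← Complex.ofReal_neg,
    ← Complex.ofReal_mul, ← Complex.ofReal_mul, Complex.ofReal_inj] at h
  simp only [mul_assoc, tsum_mul_left] at h
  simp only [mul_assoc]
  generalize ∑' v : Fin n → ℤ, coordProd L i j v * Real.exp (-(π * (t * normQ Q v))) = A at h ⊢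
  generalize ∑' v : Fin n → ℤ, coordProd L i j v * Real.exp (-(π * (t⁻¹ * normQ Q v))) = B at h ⊢
  field_simp at h
  linear_combination h

theorem pairTheta_inversion (hL : Lᵀ * L = realMat Q) (hQ : IsEvenUnimodular Q) {i j : Fin n}
    (hij : i ≠ j) {z : ℂ} (hz : 0 < z.im) :
    pairTheta Q L i j (-1 / z) = z ^ (4 * (n / 8) + 2) * pairTheta Q L i j z := by
  set U : Set ℂ := {w | 0 < w.im}
  have hUo : IsOpen U := isOpen_lt continuous_const Complex.continuous_im
  have him : ∀ w ∈ U, 0 < (-1 / w).im := fun w (hw : 0 < w.im) => by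
    have h0 : w ≠ 0 := fun h => by simp [h] at hw
    rw [neg_div, one_div, Complex.neg_im, Complex.inv_im, neg_div, neg_neg]
    exact div_pos hw (Complex.normSq_pos.2 h0)
  set F : ℂ → ℂ := fun w =>
    pairTheta Q L i j (-1 / w) - w ^ (4 * (n / 8) + 2) * pairTheta Q L i j w with hF
  have hd : DifferentiableOn ℂ F U := fun w (hw : 0 < w.im) => by
    have h0 : w ≠ 0 := fun h => by simp [h] at hw
    exact DifferentiableAt.differentiableWithinAt (DifferentiableAt.sub
      ((differentiableAt_pairTheta hL hQ i j (him w hw)).comp w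
        ((differentiableAt_const _).div differentiableAt_id h0))
      ((differentiableAt_pow _).mul (differentiableAt_pairTheta hL hQ i j hw)))
  have hray : ∀ t : ℝ, 0 < t → F (t * I) = 0 := fun t ht => by
    have ht0 : (t : ℂ) ≠ 0 := ofReal_ne_zero.2 ht.ne'
    have e1 : (-1 : ℂ) / (t * I) = ((t⁻¹ : ℝ) : ℂ) * I := by
      rw [div_eq_iff (mul_ne_zero ht0 I_ne_zero), ofReal_inv, mul_mul_mul_comm,
        inv_mul_cancel₀ ht0, one_mul, I_mul_I]
    have e2 : ((t : ℂ) * I) ^ (4 * (n / 8) + 2) = ((-(√t ^ n * t ^ 2) : ℝ) : ℂ) := by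
      obtain ⟨b, hb⟩ := eight_dvd hQ
      rw [mul_pow, pow_add I, pow_mul I, Complex.I_pow_four, one_pow, one_mul, I_sq,
        show n / 8 = b by omega, show √t ^ n = (√t ^ 2) ^ (4 * b) by rw [← pow_mul, hb]; ring_nf,
        Real.sq_sqrt ht.le]
      push_cast
      ring
    simp only [hF]
    rw [e1, pairTheta_ray, pairTheta_ray, e2, pair_inversion_ray hL hQ hij ht]
    push_cast
    ring
  have hI : Tendsto (fun t : ℝ => (t : ℂ) * I) (𝓝[≠] 1) (𝓝[≠] I) := by
    refine tendsto_nhdsWithin_iff.2 ⟨?_, eventually_nhdsWithin_of_forall fun t ht h => ht ?_⟩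
    · have hc : Continuous fun t : ℝ => (t : ℂ) * I := by fun_prop
      simpa using (hc.tendsto 1).mono_left nhdsWithin_le_nhds
    · simpa using congrArg Complex.im (Set.mem_singleton_iff.1 h)
  have hfr : ∃ᶠ w in 𝓝[≠] I, F w = 0 := by
    refine hI.frequently (Eventually.frequently ?_)
    filter_upwards [nhdsWithin_le_nhds (lt_mem_nhds (zero_lt_one' ℝ))] with t ht using hray t ht
  exact sub_eq_zero.1 ((hd.analyticOnNhd hUo).eqOn_zero_of_preconnected_of_frequently_eq_zero
    (convex_halfSpace_im_gt 0).isPreconnected (show I ∈ U by simp [U]) hfr hz)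

theorem hasSum_pairTheta (hL : Lᵀ * L = realMat Q) (hQ : IsEvenUnimodular Q) (i j : Fin n)
    (z : ℍ) :
    HasSum (fun m : ℕ => ((∑ v ∈ shell hQ m, coordProd L i j v : ℝ) : ℂ) •
      Function.Periodic.qParam (1 : ℝ) (z : ℂ) ^ m) (pairTheta Q L i j z) := by
  have h := (summable_pair hL hQ i j (z := (z : ℂ)) z.im_pos).hasSum
  rw [← (Equiv.sigmaFiberEquiv (halfNorm Q)).hasSum_iff] at h
  refine h.sigma fun m => ?_
  have hset : ∀ v, v ∈ shell hQ m ↔ halfNorm Q v = m := fun v => by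
    rw [mem_shell, two_mul_halfNorm hQ v]
    omega
  have : Fintype {v : Fin n → ℤ // halfNorm Q v = m} := Fintype.subtype (shell hQ m) hset
  convert hasSum_fintype _ using 1
  simp only [Function.comp_apply, Equiv.sigmaFiberEquiv_apply]
  rw [← Finset.sum_subtype (F := this) (p := fun v => halfNorm Q v = m) (shell hQ m) hset
      (fun v => (coordProd L i j v : ℂ) * cexp (π * I * normQ Q v * (z : ℂ))), smul_eq_mul,
    Complex.ofReal_sum, Finset.sum_mul]
  refine Finset.sum_congr rfl fun v hv => ?_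
  rw [(mem_shell hQ).1 hv, Function.Periodic.qParam, ← Complex.exp_nat_mul, Complex.ofReal_one,
    div_one]
  congr 2
  push_cast
  ring

theorem pairTheta_slash_S (hL : Lᵀ * L = realMat Q) (hQ : IsEvenUnimodular Q) {i j : Fin n}
    (hij : i ≠ j) :
    (fun z : ℍ => pairTheta Q L i j z) ∣[((4 * (n / 8) + 2 : ℕ) : ℤ)] ModularGroup.S =
      fun z : ℍ => pairTheta Q L i j z := by
  funext z
  have hz : (z : ℂ) ≠ 0 := UpperHalfPlane.ne_zero z
  rw [SlashInvariantForm.slash_S_apply]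
  show pairTheta Q L i j (-(z : ℂ))⁻¹ * (z : ℂ) ^ (-((4 * (n / 8) + 2 : ℕ) : ℤ)) = _
  rw [show (-(z : ℂ))⁻¹ = -1 / (z : ℂ) by rw [inv_neg, neg_div, one_div],
    pairTheta_inversion hL hQ hij z.im_pos, _root_.zpow_neg, zpow_natCast]
  field_simp

theorem pairTheta_slash_T (hQ : IsEvenUnimodular Q) (i j : Fin n) :
    (fun z : ℍ => pairTheta Q L i j z) ∣[((4 * (n / 8) + 2 : ℕ) : ℤ)] ModularGroup.T =
      fun z : ℍ => pairTheta Q L i j z := by
  funext z
  rw [ModularForm.SL_slash_apply, UpperHalfPlane.modular_T_smul, UpperHalfPlane.coe_vadd]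
  simp only [denom, ModularGroup.T]
  have hper : pairTheta Q L i j ((z : ℂ) + 1) = pairTheta Q L i j z := by
    refine tsum_congr fun v => ?_
    rw [mul_add, mul_one, Complex.exp_add, two_mul_halfNorm hQ v]
    push_cast
    rw [show (π : ℂ) * I * (2 * (halfNorm Q v : ℂ)) = (halfNorm Q v : ℕ) * (2 * π * I) by ring,
      Complex.exp_nat_mul_two_pi_mul_I, mul_one]
  rw [Complex.ofReal_one, add_comm (1 : ℂ) z, hper]
  simp

/-- The weighted theta series as a modular form. -/
def pairForm (hL : Lᵀ * L = realMat Q) (hQ : IsEvenUnimodular Q) {i j : Fin n} (hij : i ≠ j) :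
    ModularForm 𝒮ℒ ((4 * (n / 8) + 2 : ℕ) : ℤ) where
  toFun z := pairTheta Q L i j z
  slash_action_eq' A hA := by
    obtain ⟨A, rfl⟩ := hA
    exact SlashInvariantForm.slash_action_generators_SL2Z (pairTheta_slash_S hL hQ hij)
      (pairTheta_slash_T hQ i j) A
  holo' := by
    rw [UpperHalfPlane.mdifferentiable_iff]
    refine DifferentiableOn.congr (f := pairTheta Q L i j)
      (fun w hw => (differentiableAt_pairTheta hL hQ i j hw).differentiableWithinAt)
      fun w hw => by simp [ofComplex_apply_of_im_pos hw]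
  bdd_at_cusps' hc := by
    rw [Subgroup.IsArithmetic.isCusp_iff_isCusp_SL2Z] at hc
    refine (OnePoint.isBoundedAt_iff_forall_SL2Z hc).2 fun γ _ => ?_
    rw [SlashInvariantForm.slash_action_generators_SL2Z (pairTheta_slash_S hL hQ hij)
      (pairTheta_slash_T hQ i j) γ]
    exact UpperHalfPlane.isBoundedAtImInfty_of_hasSum_qExpansion one_pos
      (hasSum_pairTheta hL hQ i j)

theorem cuspForm_eq_zero {k : ℤ} (hk : k < 12 ∨ k = 14) (f : CuspForm 𝒮ℒ k) : f = 0 := by
  rcases hk with hk | rfl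
  · exact rank_zero_iff_forall_zero.1 (CuspForm.rank_eq_zero_of_weight_lt_twelve hk) f
  · refine (rank_zero_iff_forall_zero (R := ℂ)).1 ?_ f
    rw [(CuspForm.discriminantEquiv (k := 14)).rank_eq]
    exact levelOne_weight_two_rank_zero

theorem sum_coordProd_eq_zero (hL : Lᵀ * L = realMat Q) (hQ : IsEvenUnimodular Q) (hn : n ≤ 24)
    {i j : Fin n} (hij : i ≠ j) (m : ℕ) : ∑ v ∈ shell hQ m, coordProd L i j v = 0 := by
  obtain ⟨b, hb⟩ := eight_dvd hQ
  have hq : ∀ l, (qExpansion 1 (pairForm hL hQ hij)).coeff l =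
      ((∑ v ∈ shell hQ l, coordProd L i j v : ℝ) : ℂ) := fun l =>
    (ModularFormClass.qExpansion_coeff_unique
      (c := fun l => ((∑ v ∈ shell hQ l, coordProd L i j v : ℝ) : ℂ)) (f := pairForm hL hQ hij)
      one_pos one_mem_strictPeriods_SL (hasSum_pairTheta hL hQ i j) l).symm
  have h0 : (qExpansion 1 (pairForm hL hQ hij)).coeff 0 = 0 := by
    rw [hq, Finset.sum_eq_zero fun v hv => ?_, Complex.ofReal_zero]
    have hv0 : v = 0 := by
      by_contra hne
      have h1 := hQ.pos v hne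
      have h2 := (mem_shell hQ).1 hv
      omega
    simp [hv0, coordProd, HeckeFE.ofInt, Matrix.mulVec, dotProduct]
  have hz : toCuspForm (pairForm hL hQ hij) h0 = 0 := cuspForm_eq_zero (by omega) _
  have hfun : (⇑(pairForm hL hQ hij) : ℍ → ℂ) = 0 := by
    funext z
    have h := congrArg (fun g : CuspForm 𝒮ℒ _ => g z) hz
    simpa [toCuspForm_apply] using h
  have h := hq m
  rw [hfun, qExpansion_zero, map_zero] at h
  exact_mod_cast h.symm

/-- Rotate two rows. -/
theorem exists_rotation (hL : Lᵀ * L = realMat Q) {i j : Fin n} (hij : i ≠ j) :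
    ∃ L' : Matrix (Fin n) (Fin n) ℝ, L'ᵀ * L' = realMat Q ∧ ∀ v,
      2 * coordProd L' i j v =
        (L *ᵥ HeckeFE.ofInt v) i ^ 2 - (L *ᵥ HeckeFE.ofInt v) j ^ 2 := by
  classical
  set c : ℝ := (√2)⁻¹
  have hc : c ^ 2 = 1 / 2 := by simp [c]
  let L' : Matrix (Fin n) (Fin n) ℝ := fun a p =>
    if a = i then c * (L i p + L j p) else if a = j then c * (L i p - L j p) else L a p
  refine ⟨L', ?_, fun v => ?_⟩
  · rw [← hL]
    ext p q
    simp only [Matrix.mul_apply, Matrix.transpose_apply]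
    have hmem : j ∈ Finset.univ.erase i := Finset.mem_erase.2 ⟨hij.symm, Finset.mem_univ _⟩
    rw [← Finset.add_sum_erase _ _ (Finset.mem_univ i), ← Finset.add_sum_erase _ _ hmem,
      ← Finset.add_sum_erase (f := fun a => L a p * L a q) _ (Finset.mem_univ i),
      ← Finset.add_sum_erase (f := fun a => L a p * L a q) _ hmem,
      Finset.sum_congr rfl (g := fun a => L a p * L a q) fun a ha => ?_]
    · simp only [L', hij.symm, if_false, if_true]
      linear_combination (2 * L i p * L i q + 2 * L j p * L j q) * hc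
    · simp only [Finset.mem_erase] at ha
      simp only [L', if_neg ha.1, if_neg ha.2.1]
  · simp only [coordProd, Matrix.mulVec, dotProduct, L', hij.symm, if_false, if_true, mul_assoc,
      ← Finset.mul_sum, add_mul, sub_mul, Finset.sum_add_distrib, Finset.sum_sub_distrib]
    linear_combination (2 * ((∑ p, L i p * HeckeFE.ofInt v p) ^ 2 -
      (∑ p, L j p * HeckeFE.ofInt v p) ^ 2)) * hc

theorem second_moment (hL : Lᵀ * L = realMat Q) (hQ : IsEvenUnimodular Q) (hn : n ≤ 24) (m : ℕ)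
    (a b : Fin n) : (n : ℝ) * ∑ v ∈ shell hQ m, coordProd L a b v =
      if a = b then 2 * (m : ℝ) * repCount Q m else 0 := by
  have hdiag : ∀ i j : Fin n,
      ∑ v ∈ shell hQ m, coordProd L i i v = ∑ v ∈ shell hQ m, coordProd L j j v := by
    intro i j
    rcases eq_or_ne i j with rfl | hij
    · rfl
    obtain ⟨L', hL', h⟩ := exists_rotation hL hij
    have h0 := sum_coordProd_eq_zero hL' hQ hn hij m
    rw [← sub_eq_zero, ← Finset.sum_sub_distrib]
    calc ∑ v ∈ shell hQ m, (coordProd L i i v - coordProd L j j v)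
        = ∑ v ∈ shell hQ m, 2 * coordProd L' i j v :=
          Finset.sum_congr rfl fun v _ => by rw [h v]; simp [coordProd, sq]
      _ = 0 := by rw [← Finset.mul_sum, h0, mul_zero]
  split_ifs with hab
  · subst hab
    calc (n : ℝ) * ∑ v ∈ shell hQ m, coordProd L a a v
        = ∑ _i : Fin n, ∑ v ∈ shell hQ m, coordProd L a a v := by simp
      _ = ∑ v ∈ shell hQ m, ∑ i : Fin n, coordProd L i i v := by
          rw [Finset.sum_comm (γ := Fin n → ℤ)]
          exact Finset.sum_congr rfl fun i _ => hdiag a i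
      _ = ∑ _v ∈ shell hQ m, 2 * (m : ℝ) := Finset.sum_congr rfl fun v hv => by
          simp only [coordProd, ← sq]
          rw [sum_sq_coord hL, (mem_shell hQ).1 hv]
          push_cast
          ring
      _ = _ := by simp [card_shell, mul_comm]
  · rw [sum_coordProd_eq_zero hL hQ hn hab, mul_zero]

/-- **Venkov**: the second moment of a shell. -/
theorem design (hQ : IsEvenUnimodular Q) (hn : n ≤ 24) (m : ℕ) (x : Fin n → ℝ) :
    (n : ℝ) * ∑ v ∈ shell hQ m, (x ⬝ᵥ realMat Q *ᵥ HeckeFE.ofInt v) ^ 2 =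
      2 * (m : ℝ) * repCount Q m * (x ⬝ᵥ realMat Q *ᵥ x) := by
  obtain ⟨L, hL, -⟩ := exists_sqrt hQ
  have h1 : ∀ y : Fin n → ℝ, x ⬝ᵥ realMat Q *ᵥ y = ∑ a, (L *ᵥ x) a * (L *ᵥ y) a := fun y => by
    rw [← hL, ← Matrix.mulVec_mulVec, Matrix.dotProduct_mulVec, Matrix.vecMul_transpose]
    rfl
  simp only [h1, sq, Finset.sum_mul_sum]
  rw [Finset.sum_comm, Finset.mul_sum, Finset.mul_sum]
  refine Finset.sum_congr rfl fun a _ => ?_
  rw [Finset.sum_comm, Finset.mul_sum]
  calc ∑ b, (n : ℝ) * ∑ v ∈ shell hQ m,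
        (L *ᵥ x) a * (L *ᵥ HeckeFE.ofInt v) a * ((L *ᵥ x) b * (L *ᵥ HeckeFE.ofInt v) b)
      = ∑ b, (L *ᵥ x) a * (L *ᵥ x) b * ((n : ℝ) * ∑ v ∈ shell hQ m, coordProd L a b v) := by
        refine Finset.sum_congr rfl fun b _ => ?_
        simp only [Finset.mul_sum, coordProd]
        exact Finset.sum_congr rfl fun v _ => by ring
    _ = _ := by
        simp only [second_moment hL hQ hn m, mul_ite, mul_zero, Finset.sum_ite_eq,
          Finset.mem_univ, if_true]
        ring

theorem shell_span (hQ : IsEvenUnimodular Q) (hn : n ≤ 24) {m : ℕ} (hm : 0 < m)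
    (hr : 0 < repCount Q m) :
    Submodule.span ℝ (HeckeFE.ofInt '' (shell hQ m : Set (Fin n → ℤ))) = ⊤ := by
  by_contra hne
  obtain ⟨f, hf, hker⟩ := Submodule.exists_le_ker_of_lt_top _ (lt_top_iff_ne_top.2 hne)
  have hM := posDef_realMat hQ
  set y : Fin n → ℝ := fun a => f (Pi.single a 1) with hy
  have hfy : ∀ u : Fin n → ℝ, f u = u ⬝ᵥ y := fun u => by
    conv_lhs => rw [pi_eq_sum_univ' u]
    simp only [map_sum, map_smul, smul_eq_mul, dotProduct, hy]
  set x := (realMat Q)⁻¹ *ᵥ y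
  have hu : IsUnit (realMat Q).det := (Matrix.isUnit_iff_isUnit_det _).1 hM.isUnit
  have hxy : realMat Q *ᵥ x = y := by
    rw [Matrix.mulVec_mulVec, Matrix.mul_nonsing_inv _ hu, Matrix.one_mulVec]
  have hsymm : ∀ u : Fin n → ℝ, x ⬝ᵥ realMat Q *ᵥ u = u ⬝ᵥ y := fun u => by
    rw [Matrix.dotProduct_mulVec, ← Matrix.mulVec_transpose,
      show (realMat Q)ᵀ = realMat Q by rw [realMat, ← Matrix.transpose_map, hQ.symm], hxy,
      dotProduct_comm]
  have h := design hQ hn m x
  rw [Finset.sum_eq_zero fun v hv => ?_, mul_zero, eq_comm] at h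
  · have hx : x ≠ 0 := fun hx => hf (LinearMap.ext fun u => by
      rw [hfy, ← hxy, hx, Matrix.mulVec_zero, dotProduct_zero, LinearMap.zero_apply])
    have := hM.dotProduct_mulVec_pos hx
    rw [star_trivial] at this
    have hr' : (0 : ℝ) < repCount Q m := Nat.cast_pos.2 hr
    have hm' : (0 : ℝ) < m := Nat.cast_pos.2 hm
    nlinarith [mul_pos (mul_pos hm' hr') this]
  · rw [hsymm, ← hfy, hker (Submodule.subset_span ⟨v, hv, rfl⟩)]
    ring

end FA.Venkov

end
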