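import Fermat.Agent.Venkov.Roots
import Mathlib.LinearAlgebra.Matrix.ToLinearEquiv
import Mathlib.FieldTheory.Finite.Basic

/-!
# Uniqueness of `E₈`

The `256` classes modulo `2` are used up by `0`, `120` pairs of roots and `135` frames of eight
orthogonal pairs of value four. In the coordinates of a frame the lattice is `D₈` and a glue class.
-/

set_option autoImplicit false

noncomputable section

namespace FA.Venkov

open Matrix FA.UnimodularTheta
open scoped ArithmeticFunction.sigma

variable {Q : Matrix (Fin 8) (Fin 8) ℤ}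

/-- The class modulo two. -/
def parity (v : Fin 8 → ℤ) : Fin 8 → ZMod 2 := fun a => (v a : ZMod 2)

theorem parity_eq_iff {v w : Fin 8 → ℤ} :
    parity v = parity w ↔ ∃ u : Fin 8 → ℤ, v - w = u + u := by
  constructor
  · intro h
    have hd : ∀ a, ∃ k, v a - w a = k + k := fun a => by
      have h2 : ((v a - w a : ℤ) : ZMod 2) = 0 := by
        rw [Int.cast_sub, sub_eq_zero]
        exact congrFun h a
      obtain ⟨k, hk⟩ := (ZMod.intCast_zmod_eq_zero_iff_dvd _ _).1 h2
      exact ⟨k, by rw [hk]; push_cast; ring⟩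
    choose u hu using hd
    exact ⟨u, funext fun a => by simpa using hu a⟩
  · rintro ⟨u, hu⟩
    funext a
    have h := congrArg (fun x : ℤ => (x : ZMod 2)) (congrFun hu a)
    simp only [Pi.sub_apply, Pi.add_apply, Int.cast_sub, Int.cast_add, CharTwo.add_self_eq_zero]
      at h
    exact sub_eq_zero.1 h

theorem eight_le_normQ (hQ : IsEvenUnimodular Q) {d u : Fin 8 → ℤ} (hd : d = u + u)
    (h0 : d ≠ 0) : 8 ≤ normQ Q d := by
  have hu : u ≠ 0 := fun h => h0 (by rw [hd, h, add_zero])
  have h1 := hQ.pos u hu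
  obtain ⟨k, hk⟩ := normQ_even hQ u
  rw [hd, normQ_add hQ, innerQ_self]
  omega

theorem same_parity (hQ : IsEvenUnimodular Q) {v w : Fin 8 → ℤ} (h : parity v = parity w)
    (h1 : v ≠ w) (h2 : v ≠ -w) (hv : normQ Q v ≤ 4) (hw : normQ Q w ≤ 4) :
    normQ Q v = 4 ∧ normQ Q w = 4 ∧ innerQ Q v w = 0 := by
  obtain ⟨u, hu⟩ := parity_eq_iff.1 h
  have e1 := eight_le_normQ hQ hu (sub_ne_zero.2 h1)
  have e2 := eight_le_normQ hQ (u := u + w) (d := v + w)
    (by rw [← sub_add_cancel v w, hu]; abel) fun h => h2 (eq_neg_of_add_eq_zero_left h)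
  rw [normQ_sub hQ] at e1
  rw [normQ_add hQ] at e2
  omega

theorem card_orthogonal_le (hQ : IsEvenUnimodular Q) {R : Finset (Fin 8 → ℤ)}
    (h : ∀ v ∈ R, ∀ w ∈ R, v ≠ w → innerQ Q v w = 0) (h0 : ∀ v ∈ R, v ≠ 0) : R.card ≤ 8 := by
  have hli : LinearIndependent ℤ (fun v : R => (v : Fin 8 → ℤ)) := by
    rw [Fintype.linearIndependent_iff]
    intro g hg v
    have h1 : innerQ Q v (∑ w : R, g w • (w : Fin 8 → ℤ)) = 0 := by
      rw [hg]
      simp [innerQ]
    rw [innerQ, Matrix.mulVec_sum, dotProduct_sum, Finset.sum_eq_single v (fun w _ hw => ?_)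
      (by simp)] at h1
    · rw [Matrix.mulVec_smul, dotProduct_smul, smul_eq_mul, mul_eq_zero] at h1
      exact h1.resolve_right (hQ.pos _ (h0 _ v.2)).ne'
    · rw [Matrix.mulVec_smul, dotProduct_smul, ← innerQ,
        h _ v.2 _ w.2 (fun e => hw (Subtype.ext e.symm)), smul_zero]
  simpa using hli.fintype_card_le_finrank

/-- Half of a set of antipodal pairs. -/
def halfSet (R : Finset (Fin 8 → ℤ)) : Finset (Fin 8 → ℤ) :=
  R.filter fun v => Encodable.encode v < Encodable.encode (-v)

theorem card_fibre_le (hQ : IsEvenUnimodular Q) (c : Fin 8 → ZMod 2) :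
    ((shell hQ 2).filter fun v => parity v = c).card ≤
        2 * (halfSet ((shell hQ 2).filter fun v => parity v = c)).card ∧
      (halfSet ((shell hQ 2).filter fun v => parity v = c)).card ≤ 8 := by
  classical
  set F := (shell hQ 2).filter fun v => parity v = c
  have hF : ∀ v ∈ F, normQ Q v = 4 ∧ parity v = c ∧ v ≠ 0 := fun v hv => by
    rw [Finset.mem_filter, mem_shell] at hv
    refine ⟨by simpa using hv.1, hv.2, fun h => ?_⟩
    rw [h] at hv
    simp [normQ] at hv
  refine ⟨?_, card_orthogonal_le hQ (fun v hv w hw hne => ?_)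
    fun v hv => (hF v (Finset.mem_filter.1 hv).1).2.2⟩
  · refine le_trans (Finset.card_le_card
      (t := halfSet F ∪ (halfSet F).image fun w : Fin 8 → ℤ => -w) fun v hv => ?_) ?_
    swap
    · rw [two_mul]
      exact (Finset.card_union_le _ _).trans (Nat.add_le_add_left Finset.card_image_le _)
    rcases lt_trichotomy (Encodable.encode v) (Encodable.encode (-v)) with h | h | h
    · exact Finset.mem_union_left _ (Finset.mem_filter.2 ⟨hv, h⟩)
    · have h' := Encodable.encode_injective h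
      exact absurd (funext fun a => by have := congrFun h' a; simp at this ⊢; omega) (hF v hv).2.2
    · refine Finset.mem_union_right _ (Finset.mem_image.2 ⟨-v, Finset.mem_filter.2 ⟨?_, ?_⟩,
        neg_neg v⟩)
      · refine Finset.mem_filter.2 ⟨?_, ?_⟩
        · rw [mem_shell, normQ_neg, ← mem_shell hQ]
          exact (Finset.mem_filter.1 hv).1
        · rw [← (hF v hv).2.1]
          funext a
          simp [parity, ZMod.neg_eq_self_mod_two]
      · rwa [neg_neg]
  · simp only [halfSet, Finset.mem_filter] at hv hw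
    obtain ⟨v4, vp, -⟩ := hF v hv.1
    obtain ⟨w4, wp, -⟩ := hF w hw.1
    refine (same_parity hQ (vp.trans wp.symm) hne (fun h => ?_) v4.le w4.le).2.2
    have h' := hv.2
    rw [h, neg_neg] at h'
    exact absurd h' (not_lt.2 hw.2.le)

/-- **A frame**: eight orthogonal vectors of value four, congruent modulo two. -/
theorem exists_frame (hQ : IsEvenUnimodular Q) : ∃ e : Fin 8 → Fin 8 → ℤ,
    (∀ a b, innerQ Q (e a) (e b) = if a = b then 4 else 0) ∧
      ∀ a b, parity (e a) = parity (e b) := by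
  have h1 : (shell hQ 1).card = 240 := by
    rw [card_shell, repCount_eight hQ rfl one_ne_zero]
    simp [ArithmeticFunction.sigma_apply]
  have h2 : (shell hQ 2).card = 2160 := by
    rw [card_shell, repCount_eight hQ rfl two_ne_zero, show σ 3 2 = 9 by decide +kernel]
  have hq1 : ∀ v ∈ shell hQ 1, normQ Q v = 2 := fun v hv => by simpa using (mem_shell hQ).1 hv
  have hq2 : ∀ v ∈ shell hQ 2, normQ Q v = 4 := fun v hv => by simpa using (mem_shell hQ).1 hv
  set c1 := (shell hQ 1).image parity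
  set c2 := (shell hQ 2).image parity
  have hc1 : 120 ≤ c1.card := by
    have h := Finset.card_le_mul_card_image (f := parity) (shell hQ 1) 2 fun c hc => ?_
    · simp only [c1]
      omega
    · obtain ⟨v, hv, rfl⟩ := Finset.mem_image.1 hc
      refine (Finset.card_le_card (t := ({v, -v} : Finset (Fin 8 → ℤ))) fun w hw => ?_).trans
        Finset.card_le_two
      rw [Finset.mem_filter] at hw
      by_contra hne
      simp only [Finset.mem_insert, Finset.mem_singleton, not_or] at hne
      have := same_parity hQ hw.2 hne.1 hne.2 (by rw [hq1 w hw.1]; norm_num)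
        (by rw [hq1 v hv]; norm_num)
      rw [hq1 w hw.1] at this
      omega
  have hzero : ∀ v, normQ Q v = 2 ∨ normQ Q v = 4 → parity v ≠ parity 0 := fun v hv h => by
    obtain ⟨u, hu⟩ := parity_eq_iff.1 h
    rw [sub_zero] at hu
    have := eight_le_normQ hQ hu fun h0 => by simp [h0, normQ] at hv
    omega
  have hd12 : Disjoint c1 c2 := by
    rw [Finset.disjoint_left]
    intro c hc hc'
    obtain ⟨v, hv, rfl⟩ := Finset.mem_image.1 hc
    obtain ⟨w, hw, hvw⟩ := Finset.mem_image.1 hc'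
    have hne : ∀ u, normQ Q u = 2 → w ≠ u := fun u hu h => by
      have := hq2 w hw
      rw [h, hu] at this
      omega
    have := same_parity hQ hvw (hne v (hq1 v hv)) (hne (-v) (by rw [normQ_neg, hq1 v hv]))
      (hq2 w hw).le (by rw [hq1 v hv]; norm_num)
    rw [hq1 v hv] at this
    omega
  have hc2 : c2.card ≤ 135 := by
    have hsub : parity 0 ∉ c1 ∪ c2 := by
      rw [Finset.mem_union, Finset.mem_image, Finset.mem_image]
      rintro (⟨v, hv, h⟩ | ⟨v, hv, h⟩)
      · exact hzero v (Or.inl (hq1 v hv)) h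
      · exact hzero v (Or.inr (hq2 v hv)) h
    have h := Finset.card_le_univ (insert (parity 0) (c1 ∪ c2))
    rw [Finset.card_insert_of_notMem hsub, Finset.card_union_of_disjoint hd12,
      Fintype.card_fun, ZMod.card, Fintype.card_fin] at h
    norm_num at h
    omega
  obtain ⟨c, -, hc⟩ : ∃ c ∈ c2, 15 < ((shell hQ 2).filter fun v => parity v = c).card := by
    by_contra hcon
    push Not at hcon
    have h : (shell hQ 2).card ≤ 15 * c2.card :=
      Finset.card_le_mul_card_image (f := parity) (shell hQ 2) 15 hcon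
    omega
  obtain ⟨hle, h8⟩ := card_fibre_le hQ c
  set R := halfSet ((shell hQ 2).filter fun v => parity v = c)
  have hR : R.card = 8 := by omega
  obtain ⟨φ⟩ : Nonempty (Fin 8 ≃ R) :=
    ⟨(Fintype.equivFinOfCardEq (by rw [Fintype.card_coe, hR])).symm⟩
  have hmem : ∀ a, normQ Q (φ a : Fin 8 → ℤ) = 4 ∧ parity (φ a : Fin 8 → ℤ) = c ∧
      Encodable.encode (φ a : Fin 8 → ℤ) < Encodable.encode (-(φ a : Fin 8 → ℤ)) := fun a => by
    have h := (φ a).2
    simp only [R, halfSet, Finset.mem_filter] at h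
    exact ⟨hq2 _ h.1.1, h.1.2, h.2⟩
  refine ⟨fun a => φ a, fun a b => ?_, fun a b => (hmem a).2.1.trans (hmem b).2.1.symm⟩
  rcases eq_or_ne a b with rfl | hab
  · rw [if_pos rfl, innerQ_self, (hmem a).1]
  · rw [if_neg hab]
    refine (same_parity hQ ((hmem a).2.1.trans (hmem b).2.1.symm)
      (fun h => hab (φ.injective (Subtype.ext h))) (fun h => ?_) (hmem a).1.le (hmem b).1.le).2.2
    have h' := (hmem a).2.2
    rw [h, neg_neg] at h'
    exact absurd h' (not_lt.2 (hmem b).2.2.le)

/-- The model: equal parities, sum divisible by four. -/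
def modelE (y : Fin 8 → ℤ) : Prop := (∀ a b, Even (y a - y b)) ∧ 4 ∣ ∑ a, y a

theorem modelE_sub {y z : Fin 8 → ℤ} (hy : modelE y) (hz : modelE z) : modelE (y - z) := by
  refine ⟨fun a b => ?_, ?_⟩
  · simpa [sub_sub_sub_comm] using (hy.1 a b).sub (hz.1 a b)
  · simpa [Finset.sum_sub_distrib] using dvd_sub hy.2 hz.2

theorem exists_coordinates (hQ : IsEvenUnimodular Q) : ∃ G : Matrix (Fin 8) (Fin 8) ℤ,
    Gᵀ * G = 4 • Q ∧ ∀ y, (∃ v, G *ᵥ v = y) ↔ modelE y := by
  classical
  obtain ⟨e, he, hpar⟩ := exists_frame hQ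
  -- the coordinates, the frame vectors are `4` times the unit vectors
  set E : Matrix (Fin 8) (Fin 8) ℤ := Matrix.of fun p a => e a p
  set G : Matrix (Fin 8) (Fin 8) ℤ := Eᵀ * Q
  have hGv : ∀ v a, (G *ᵥ v) a = innerQ Q (e a) v := fun v a => by
    rw [← Matrix.mulVec_mulVec]
    rfl
  have hGE : G * E = 4 • (1 : Matrix (Fin 8) (Fin 8) ℤ) := by
    ext a b
    show (G *ᵥ e b) a = _
    rw [hGv, he]
    simp [Matrix.smul_apply, Matrix.one_apply]
  have hEG : E * G = 4 • (1 : Matrix (Fin 8) (Fin 8) ℤ) := by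
    have hdet : E.det ≠ 0 := fun h => by
      have := congrArg Matrix.det hGE
      rw [Matrix.det_mul, h, mul_zero, ← Nat.cast_smul_eq_nsmul ℤ, Matrix.det_smul,
        Matrix.det_one] at this
      norm_num at this
    refine sub_eq_zero.1 ?_
    have h : (E * G - 4 • 1) * E = 0 := by
      rw [Matrix.sub_mul, Matrix.mul_assoc, hGE, Matrix.mul_smul, Matrix.mul_one, Matrix.smul_mul,
        Matrix.one_mul, sub_self]
    ext a b
    by_contra hne
    refine hne ?_
    have h' := congrArg (fun M : Matrix (Fin 8) (Fin 8) ℤ => M * E.adjugate) h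
    simp only [Matrix.mul_assoc, Matrix.mul_adjugate, Matrix.mul_smul, Matrix.mul_one,
      Matrix.zero_mul] at h'
    have h'' := congrFun (congrFun h' a) b
    simpa [hdet] using h''
  have hGG : Gᵀ * G = 4 • Q := by
    have hEE : E * Eᵀ * Q = 4 • (1 : Matrix (Fin 8) (Fin 8) ℤ) := by
      rw [Matrix.mul_assoc]
      exact hEG
    calc Gᵀ * G = Q * (E * Eᵀ * Q) := by
          simp only [G, Matrix.transpose_mul, Matrix.transpose_transpose, hQ.symm, Matrix.mul_assoc]
      _ = 4 • Q := by rw [hEE, Matrix.mul_smul, Matrix.mul_one]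
  have hsq : ∀ v, ∑ a, (G *ᵥ v) a ^ 2 = 4 * normQ Q v := fun v => by
    have h : (G *ᵥ v) ⬝ᵥ (G *ᵥ v) = v ⬝ᵥ (Gᵀ * G) *ᵥ v := by
      rw [Matrix.dotProduct_mulVec v, ← Matrix.vecMul_vecMul, Matrix.vecMul_transpose,
        Matrix.dotProduct_mulVec]
    rw [hGG, Matrix.smul_mulVec, dotProduct_smul] at h
    simpa [dotProduct, sq, normQ] using h
  -- all coordinates have the same parity; if they are even their sum is divisible by four
  have hsame : ∀ v a b, Even ((G *ᵥ v) a - (G *ᵥ v) b) := fun v a b => by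
    obtain ⟨u, hu⟩ := parity_eq_iff.1 (hpar a b)
    refine ⟨innerQ Q u v, ?_⟩
    rw [hGv, hGv, innerQ, innerQ, ← sub_dotProduct, hu, add_dotProduct]
    rfl
  have heven : ∀ v, Even ((G *ᵥ v) 0) → 4 ∣ ∑ a, (G *ᵥ v) a := fun v h0 => by
    have hev : ∀ a, ∃ k, (G *ᵥ v) a = 2 * k := fun a => by
      obtain ⟨k, hk⟩ := (hsame v a 0).add h0
      exact ⟨k, by rw [sub_add_cancel] at hk; omega⟩
    choose z hz using hev
    have h := hsq v
    obtain ⟨q, hq⟩ := normQ_even hQ v
    simp only [hz, mul_pow, ← Finset.mul_sum] at h ⊢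
    rw [show (4 : ℤ) = 2 * 2 by norm_num]
    refine mul_dvd_mul_left 2 ((ZMod.intCast_zmod_eq_zero_iff_dvd _ 2).1 ?_)
    have h' : ∑ a, z a ^ 2 = 2 * q := by omega
    have h'' := congrArg (fun x : ℤ => (x : ZMod 2)) h'
    simpa [ZMod.pow_card, show (2 : ZMod 2) = 0 from rfl] using h''
  -- some coordinates are odd, as `det G` is `± 256`
  obtain ⟨g, hg⟩ : ∃ v, ¬ Even ((G *ᵥ v) 0) := by
    by_contra hcon
    push Not at hcon
    have hev : ∀ a b, ∃ k, G a b = 2 * k := fun a b => by
      obtain ⟨k, hk⟩ := (hsame (Pi.single b 1) a 0).add (hcon (Pi.single b 1))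
      rw [sub_add_cancel, Matrix.mulVec_single_one] at hk
      exact ⟨k, by simp at hk; omega⟩
    choose Z hZ using hev
    have hG : G = (2 : ℤ) • Matrix.of Z := by
      ext a b
      simp [hZ a b]
    have h := congrArg Matrix.det hGG
    rw [← Nat.cast_smul_eq_nsmul ℤ, Matrix.det_mul, Matrix.det_transpose, hG, Matrix.det_smul,
      Matrix.det_smul, hQ.det_eq, Fintype.card_fin] at h
    have hdet : ((Matrix.of Z).det : ZMod 2) = 1 := by
      have h' : (Matrix.of Z).det * (Matrix.of Z).det = 1 := by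
        push_cast at h
        linarith
      rcases mul_self_eq_one_iff.1 h' with h' | h' <;> rw [h'] <;> simp
    have hcol : ∀ b, (∑ a, (Z a b : ZMod 2)) = 0 := fun b => by
      obtain ⟨k, hk⟩ := heven (Pi.single b 1) (hcon _)
      simp only [Matrix.mulVec_single_one, Matrix.col_apply, hZ, ← Finset.mul_sum] at hk
      have h2 : ∑ a, Z a b = 2 * k := by omega
      have h' := congrArg (fun x : ℤ => (x : ZMod 2)) h2
      simpa [show (2 : ZMod 2) = 0 from rfl] using h'
    have hM : ((Matrix.of Z).map (Int.cast : ℤ → ZMod 2)).det = 0 :=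
      Matrix.exists_vecMul_eq_zero_iff.1
        ⟨fun _ => 1, fun h => one_ne_zero (congrFun h 0), funext fun b => by
          simpa [Matrix.vecMul, dotProduct] using hcol b⟩
    rw [show (Matrix.of Z).map (Int.cast : ℤ → ZMod 2) =
        (Int.castRingHom (ZMod 2)).mapMatrix (Matrix.of Z) from rfl, ← RingHom.map_det, eq_intCast,
      hdet] at hM
    exact one_ne_zero hM
  -- after a change of sign at most, the glue has sum divisible by four
  obtain ⟨s, hs, hss⟩ : ∃ s : Fin 8 → ℤ, (∀ a, s a = 1 ∨ s a = -1) ∧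
      4 ∣ ∑ a, s a * (G *ᵥ g) a := by
    by_cases h4 : 4 ∣ ∑ a, (G *ᵥ g) a
    · exact ⟨fun _ => 1, fun _ => Or.inl rfl, by simpa using h4⟩
    · refine ⟨fun a => if a = 0 then -1 else 1,
        fun a => by rcases eq_or_ne a 0 with h | h <;> simp [h], ?_⟩
      have hodd : ∀ a, ∃ k, (G *ᵥ g) a = (G *ᵥ g) 0 + 2 * k := fun a => by
        obtain ⟨k, hk⟩ := hsame g a 0
        exact ⟨k, by omega⟩
      choose k hk using hodd
      obtain ⟨p, hp⟩ := Int.not_even_iff_odd.1 hg
      have e1 : ∑ a, (if a = (0 : Fin 8) then (-1 : ℤ) else 1) * (G *ᵥ g) a =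
          ∑ a, (G *ᵥ g) a - 2 * (G *ᵥ g) 0 := by
        rw [← sub_eq_zero]
        simp only [ite_mul, neg_mul, one_mul, Fin.sum_univ_eight]
        simp
        ring
      have e2 : ∑ a, (G *ᵥ g) a = 8 * (G *ᵥ g) 0 + 2 * ∑ a, k a := by
        rw [Finset.sum_congr rfl fun a _ => hk a, Finset.sum_add_distrib, Finset.mul_sum]
        simp
      rw [e1]
      omega
  have hs2 : ∀ a, s a * s a = 1 := fun a => by rcases hs a with h | h <;> simp [h]
  refine ⟨Matrix.diagonal s * G, ?_, fun y => ?_⟩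
  · rw [Matrix.transpose_mul, Matrix.diagonal_transpose, Matrix.mul_assoc,
      ← Matrix.mul_assoc (Matrix.diagonal s), Matrix.diagonal_mul_diagonal]
    simp only [hs2, Matrix.diagonal_one, Matrix.one_mul, hGG]
  have hfun : ∀ v a, ((Matrix.diagonal s * G) *ᵥ v) a = s a * (G *ᵥ v) a := fun v a => by
    rw [← Matrix.mulVec_mulVec, Matrix.mulVec_diagonal]
  have hmodel : ∀ v, modelE ((Matrix.diagonal s * G) *ᵥ v) := by
    intro v
    have hp : ∀ a b, Even (((Matrix.diagonal s * G) *ᵥ v) a -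
        ((Matrix.diagonal s * G) *ᵥ v) b) := fun a b => by
      rw [hfun, hfun]
      obtain ⟨k, hk⟩ := hsame v a b
      rcases hs a with ha | ha <;> rcases hs b with hb | hb <;> rw [ha, hb, Int.even_iff] <;> omega
    have hv0 : ∀ w, Even ((G *ᵥ w) 0) → 4 ∣ ∑ a, ((Matrix.diagonal s * G) *ᵥ w) a := by
      intro w hw
      have hev : ∀ a, ∃ k, (G *ᵥ w) a = 2 * k := fun a => by
        obtain ⟨k, hk⟩ := (hsame w a 0).add hw
        exact ⟨k, by rw [sub_add_cancel] at hk; omega⟩
      choose z hz using hev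
      obtain ⟨k, hk⟩ := heven w hw
      have hd : ∀ a, (4 : ℤ) ∣ s a * (G *ᵥ w) a - (G *ᵥ w) a := fun a => by
        rcases hs a with h | h <;> simp [h, hz a]
        exact ⟨-z a, by ring⟩
      have := Finset.dvd_sum fun a (_ : a ∈ Finset.univ) => hd a
      rw [Finset.sum_sub_distrib] at this
      simp only [hfun]
      exact (dvd_sub_left ⟨k, hk⟩).1 this
    refine ⟨hp, ?_⟩
    by_cases hw : Even ((G *ᵥ v) 0)
    · exact hv0 v hw
    · have h := hv0 (v - g) (by
        rw [Matrix.mulVec_sub, Pi.sub_apply, Int.even_sub]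
        exact iff_of_false hw hg)
      simp only [Matrix.mulVec_sub, Pi.sub_apply, Finset.sum_sub_distrib] at h
      refine (dvd_sub_left ?_).1 h
      simpa only [hfun] using hss
  refine ⟨fun ⟨v, hv⟩ => hv ▸ hmodel v, fun hy => ?_⟩
  -- the model is reached
  have hpair : ∀ a, ∃ v, (Matrix.diagonal s * G) *ᵥ v = Pi.single a 2 + Pi.single 0 2 := by
    intro a
    obtain ⟨u, hu⟩ := parity_eq_iff.1 (hpar a 0)
    have hGu : ∀ b, (G *ᵥ u) b = (if b = a then 2 else 0) - (if b = 0 then 2 else 0) := by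
      intro b
      have h2 : innerQ Q (e b) (e a) - innerQ Q (e b) (e 0) =
          innerQ Q (e b) u + innerQ Q (e b) u := by
        simp only [innerQ, ← dotProduct_sub, ← dotProduct_add, ← Matrix.mulVec_sub,
          ← Matrix.mulVec_add, hu]
      rw [he, he, ← hGv] at h2
      split_ifs at h2 ⊢ <;> omega
    have hGe : ∀ b, (G *ᵥ e 0) b = if b = 0 then 4 else 0 := fun b => by rw [hGv, he]
    refine ⟨s a • (u + e 0) + ((s 0 - s a) / 2) • e 0, funext fun b => ?_⟩
    simp only [Matrix.mulVec_add, Matrix.mulVec_smul, Pi.add_apply, Pi.smul_apply, smul_eq_mul,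
      hfun, hGu, hGe, Pi.single_apply]
    rcases eq_or_ne b a with rfl | hba <;> rcases eq_or_ne b 0 with rfl | hb0
    · rcases hs 0 with h | h <;> simp [h]
    · simp only [if_true, if_neg hb0]
      linear_combination 2 * hs2 b
    · simp only [if_true, if_neg hba]
      rcases hs a with h | h <;> rcases hs 0 with h' | h' <;> simp [h, h']
    · simp [hba, hb0]
  obtain ⟨w, hw⟩ : ∃ w : Fin 8 → ℤ, w = (Matrix.diagonal s * G) *ᵥ g := ⟨_, rfl⟩
  -- even members of the model
  have hevenY : ∀ z, modelE z → Even (z 0) → ∃ v, (Matrix.diagonal s * G) *ᵥ v = z := by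
    intro z hz h0
    have hev : ∀ a, ∃ k, z a = 2 * k := fun a => by
      obtain ⟨k, hk⟩ := (hz.1 a 0).add h0
      exact ⟨k, by rw [sub_add_cancel] at hk; omega⟩
    choose k hk using hev
    choose v hv using hpair
    obtain ⟨j, hj⟩ : 2 ∣ ∑ a, k a := by
      obtain ⟨j, hj⟩ := hz.2
      rw [Finset.sum_congr rfl fun a _ => hk a, ← Finset.mul_sum] at hj
      exact ⟨j, by omega⟩
    refine ⟨∑ a, k a • v a - j • v 0, ?_⟩
    rw [Matrix.mulVec_sub, Matrix.mulVec_sum, Matrix.mulVec_smul]
    funext b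
    simp only [Matrix.mulVec_smul, hv, Finset.sum_apply, Pi.sub_apply, Pi.smul_apply, Pi.add_apply,
      smul_eq_mul, mul_add, Finset.sum_add_distrib, Pi.single_apply, mul_ite, mul_zero,
      Finset.sum_ite_eq, Finset.mem_univ, if_true]
    rcases eq_or_ne b 0 with rfl | hb
    · simp only [if_true, ← Finset.sum_mul]
      linarith [hk 0]
    · simp only [if_neg hb, Finset.sum_const_zero]
      linarith [hk b]
  by_cases h0 : Even (y 0)
  · exact hevenY y hy h0
  · obtain ⟨v, hv⟩ := hevenY (y - w) (modelE_sub hy (hw ▸ hmodel g)) (by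
      rw [Pi.sub_apply, Int.even_sub]
      refine iff_of_false h0 ?_
      rw [hw, hfun]
      rcases hs 0 with h | h <;> simp [h, hg])
    exact ⟨v + g, by rw [Matrix.mulVec_add, hv, ← hw, sub_add_cancel]⟩

theorem equivalent (hQ : IsEvenUnimodular Q) {P : Matrix (Fin 8) (Fin 8) ℤ}
    (hP : IsEvenUnimodular P) :
    ∃ U : Matrix (Fin 8) (Fin 8) ℤ, IsUnit U ∧ Uᵀ * Q * U = P := by
  obtain ⟨G, hG, hG'⟩ := exists_coordinates hQ
  obtain ⟨H, hH, hH'⟩ := exists_coordinates hP
  have hcol : ∀ b, ∃ v, G *ᵥ v = H *ᵥ Pi.single b 1 := fun b => (hG' _).2 ((hH' _).1 ⟨_, rfl⟩)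
  choose u hu using hcol
  set U : Matrix (Fin 8) (Fin 8) ℤ := Matrix.of fun p b => u b p
  have hGU : G * U = H := by
    ext a b
    have h := congrFun (hu b) a
    rw [Matrix.mulVec_single_one] at h
    exact h
  have h4 : 4 • (Uᵀ * Q * U) = 4 • P := by
    rw [← hH, ← hGU, Matrix.transpose_mul, Matrix.mul_assoc Uᵀ Gᵀ, ← Matrix.mul_assoc Gᵀ G U, hG,
      Matrix.smul_mul, Matrix.mul_smul, Matrix.mul_assoc]
  have hU : Uᵀ * Q * U = P := by
    ext a b
    have h := congrFun (congrFun h4 a) b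
    simp only [Matrix.smul_apply, nsmul_eq_mul] at h
    omega
  refine ⟨U, ?_, hU⟩
  have h := congrArg Matrix.det hU
  rw [Matrix.det_mul, Matrix.det_mul, Matrix.det_transpose, hQ.det_eq, hP.det_eq, mul_one] at h
  exact (Matrix.isUnit_iff_isUnit_det _).2 (IsUnit.of_mul_eq_one _ h)

end FA.Venkov

end
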