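import Fermat.Agent.Venkov.Design

/-!
# The roots in rank twenty-four

A root has inner product one with `r(1)/12 - 4` others, an even number, so `24 ∣ r(1)`.
-/

set_option autoImplicit false

noncomputable section

namespace FA.Venkov

open Matrix FA.UnimodularTheta

variable {n : ℕ} {Q : Matrix (Fin n) (Fin n) ℤ}

/-- The bilinear form. -/
def innerQ (Q : Matrix (Fin n) (Fin n) ℤ) (v w : Fin n → ℤ) : ℤ := v ⬝ᵥ Q *ᵥ w

theorem innerQ_self (v : Fin n → ℤ) : innerQ Q v v = normQ Q v := rfl

theorem innerQ_comm (hQ : IsEvenUnimodular Q) (v w : Fin n → ℤ) :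
    innerQ Q v w = innerQ Q w v := by
  rw [innerQ, innerQ, Matrix.dotProduct_mulVec, ← Matrix.mulVec_transpose, hQ.symm,
    dotProduct_comm]

theorem normQ_add (hQ : IsEvenUnimodular Q) (v w : Fin n → ℤ) :
    normQ Q (v + w) = normQ Q v + 2 * innerQ Q v w + normQ Q w := by
  have h := innerQ_comm hQ w v
  simp only [normQ, innerQ, Matrix.mulVec_add, dotProduct_add, add_dotProduct] at h ⊢
  rw [h]
  ring

theorem normQ_neg (Q : Matrix (Fin n) (Fin n) ℤ) (v : Fin n → ℤ) :
    normQ Q (-v) = normQ Q v := by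
  simp [normQ, Matrix.mulVec_neg]

theorem normQ_sub (hQ : IsEvenUnimodular Q) (v w : Fin n → ℤ) :
    normQ Q (v - w) = normQ Q v - 2 * innerQ Q v w + normQ Q w := by
  rw [sub_eq_add_neg, normQ_add hQ, normQ_neg, innerQ, Matrix.mulVec_neg, dotProduct_neg, innerQ]
  ring

/-- The second moment on integer vectors. -/
theorem design_int (hQ : IsEvenUnimodular Q) (hn : n ≤ 24) (m : ℕ) (x : Fin n → ℤ) :
    (n : ℤ) * ∑ v ∈ shell hQ m, innerQ Q x v ^ 2 = 2 * m * repCount Q m * normQ Q x := by
  have h := design hQ hn m (HeckeFE.ofInt x)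
  rw [realMat_normQ] at h
  have e : ∀ v : Fin n → ℤ,
      HeckeFE.ofInt x ⬝ᵥ realMat Q *ᵥ HeckeFE.ofInt v = (innerQ Q x v : ℝ) := fun v => by
    simp [innerQ, realMat, Matrix.mulVec, dotProduct, HeckeFE.ofInt]
  simp only [e] at h
  exact_mod_cast h

theorem root_neighbours (hQ : IsEvenUnimodular Q) (hn : n = 24) {a : Fin n → ℤ}
    (ha : a ∈ shell hQ 1) :
    12 * (((shell hQ 1).filter fun b => innerQ Q a b = 1).card + 4) = repCount Q 1 ∧
      Even ((shell hQ 1).filter fun b => innerQ Q a b = 1).card := by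
  classical
  have hqa : normQ Q a = 2 := by simpa using (mem_shell hQ).1 ha
  have hq : ∀ b ∈ shell hQ 1, normQ Q b = 2 := fun b hb => by simpa using (mem_shell hQ).1 hb
  have hneg : ∀ b ∈ shell hQ 1, -b ∈ shell hQ 1 := fun b hb => by
    rw [mem_shell, normQ_neg, ← mem_shell hQ]
    exact hb
  have hinn : ∀ b, innerQ Q a (-b) = -innerQ Q a b := fun b => by
    simp [innerQ, Matrix.mulVec_neg]
  set A := (shell hQ 1).filter fun b => innerQ Q a b = 1 with hA
  set A' := (shell hQ 1).filter fun b => innerQ Q a b = -1 with hA'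
  have hcard : A'.card = A.card := by
    refine Finset.card_nbij' (fun b => -b) (fun b => -b) ?_ ?_ (fun b _ => neg_neg b)
      fun b _ => neg_neg b
    · intro b hb
      simp only [hA', hA, Finset.coe_filter, Set.mem_ofPred_eq] at hb ⊢
      exact ⟨hneg b hb.1, by rw [hinn, hb.2, neg_neg]⟩
    · intro b hb
      simp only [hA', hA, Finset.coe_filter, Set.mem_ofPred_eq] at hb ⊢
      exact ⟨hneg b hb.1, by rw [hinn, hb.2]⟩
  have hsplit : ∀ b ∈ shell hQ 1, innerQ Q a b ^ 2 =
      (if b = a then 4 else 0) + (if b = -a then 4 else 0) +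
        (if innerQ Q a b = 1 then 1 else 0) + (if innerQ Q a b = -1 then 1 else 0) := by
    intro b hb
    rcases eq_or_ne b a with rfl | h1
    · have hne : b ≠ -b := fun h => by
        have h0 : b = 0 := funext fun i => by have := congrFun h i; simp at this ⊢; omega
        simp [h0, normQ] at hqa
      simp [innerQ_self, hqa, hne]
    rcases eq_or_ne b (-a) with rfl | h2
    · simp [hinn, innerQ_self, hqa, h1]
    have e1 := normQ_sub hQ a b
    have e2 := normQ_add hQ a b
    have p1 := hQ.pos (a - b) (sub_ne_zero.2 (Ne.symm h1))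
    have p2 := hQ.pos (a + b) fun h => h2 (eq_neg_of_add_eq_zero_right h)
    rw [hqa, hq b hb] at e1 e2
    rw [if_neg h1, if_neg h2]
    have hcase : innerQ Q a b = -1 ∨ innerQ Q a b = 0 ∨ innerQ Q a b = 1 := by omega
    rcases hcase with h | h | h <;> simp [h]
  have h := design_int hQ (by omega) 1 a
  rw [Finset.sum_congr rfl hsplit, Finset.sum_add_distrib, Finset.sum_add_distrib,
    Finset.sum_add_distrib, Finset.sum_ite_eq', Finset.sum_ite_eq', if_pos ha, if_pos (hneg a ha),
    Finset.sum_boole, Finset.sum_boole, ← hA, ← hA', hcard, hqa,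
    show (n : ℤ) = 24 by exact_mod_cast hn] at h
  push_cast at h
  refine ⟨by omega, ?_⟩
  rw [← ZMod.natCast_eq_zero_iff_even, Finset.cast_card]
  refine Finset.sum_involution (fun b _ => a - b) (fun _ _ => by decide)
    (fun b hb _ h => ?_) (fun b hb => ?_) (fun b _ => sub_sub_cancel a b)
  · have hab : a = b + b := by
      rw [← sub_eq_iff_eq_add]
      exact h
    have e := normQ_add hQ b b
    rw [innerQ_self, ← hab, hqa, hq b (Finset.mem_filter.1 hb).1] at e
    omega
  · rw [hA, Finset.mem_filter] at hb ⊢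
    refine ⟨(mem_shell hQ).2 ?_, ?_⟩
    · rw [normQ_sub hQ, hqa, hq b hb.1, hb.2]
      norm_num
    · rw [innerQ, Matrix.mulVec_sub, dotProduct_sub, ← innerQ, ← innerQ, innerQ_self, hqa, hb.2]
      norm_num

theorem twentyFour_dvd_roots (hQ : IsEvenUnimodular Q) (hn : n = 24) : 24 ∣ repCount Q 1 := by
  rcases Finset.eq_empty_or_nonempty (shell hQ 1) with h | ⟨a, ha⟩
  · rw [← card_shell hQ, h]
    simp
  · obtain ⟨h, k, hk⟩ := root_neighbours hQ hn ha
    omega

end FA.Venkov

end
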